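import Fermat.Agent.S58.Cmp.Compare
import Fermat.Agent.S58.Loc.Inertia
import Fermat.Agent.S58.EC.Hasse
import Fermat.Agent.S58.Char
import Fermat.Agent.S58.Carayol
import Fermat.Agent.S35

/-!
# S58, steps (I) and (II): the level of the newform attached to a semistable curve is squarefree and divides `Δ`
-/

set_option autoImplicit false

namespace Fermat.Agent.S58

open WeierstrassCurve WeierstrassCurve.Affine ModularFormClass Polynomial

/-- (I) `q² ∥ N₀` is impossible. -/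
theorem no_square (W : WeierstrassCurve ℤ) (hss : W.IsSemistableModel) (hΔ0 : W.Δ ≠ 0)
    {N₀ : ℕ} [NeZero N₀] {g : CuspForm (CongruenceSubgroup.Gamma0 N₀) 2} (hg : g.IsNewform)
    (B : Finset ℕ) (h : ∀ ℓ : ℕ, ℓ.Prime → ℓ ∉ B → qCoeff g ℓ = (W.apOfModel ℓ : ℂ))
    {q : ℕ} (hq : q.Prime) : N₀.factorization q ≠ 2 := by
  classical
  intro hfac
  -- an odd prime `lam ≠ q`
  obtain ⟨lam, hlam, hlam2, hqlam⟩ : ∃ lam : ℕ, lam.Prime ∧ lam ≠ 2 ∧ q ≠ lam := by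
    by_cases h3 : q = 3
    · exact ⟨5, by norm_num, by norm_num, by omega⟩
    · exact ⟨3, by norm_num, by norm_num, h3⟩
  have : Fact lam.Prime := ⟨hlam⟩
  set S : Finset ℕ := B ∪ N₀.primeFactors ∪ {lam} with hS
  have hlamS : lam ∈ S := by simp [hS]
  have hMS : ∀ r : ℕ, r.Prime → r ∣ N₀ → r ∈ S := by
    intro r hr hrN
    simp only [hS, Finset.mem_union, Nat.mem_primeFactors]
    exact Or.inl (Or.inr ⟨hr, hrN, NeZero.ne N₀⟩)
  have hBS : ∀ ℓ : ℕ, ℓ ∉ S → ℓ ∉ B := by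
    intro ℓ hℓ hB
    exact hℓ (by simp [hS, hB])
  obtain ⟨chig, iota, hchig, hiota⟩ := exists_char hg.1 S hMS (fun ℓ => W.apOfModel ℓ)
    (fun ℓ hℓ hℓS => h ℓ hℓ (hBS ℓ hℓS)) lam
  obtain ⟨ρ, hρ, hnu⟩ := carayol hg lam S ℤ_[lam] (lam_mem_maximalIdeal lam) chig hchig iota
    hlamS hMS
  apply hnu q hq hqlam hfac
  intro P hP τ hτ
  have key := compare W hΔ0 hlam hlam2 ℤ_[lam] (lam_mem_maximalIdeal lam) ρ S
    (fun ℓ hℓ hℓS A hA σ hσ => by
      have hℓM : ¬ ℓ ∣ N₀ := fun hd => hℓS (hMS ℓ hℓ hd)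
      have hℓS' : ℓ ∉ (↑S : Set ℕ) := by simpa using hℓS
      rw [hρ ℓ hℓ hℓM hℓS' A hA σ hσ, hiota ℓ hℓ hℓM hℓS'])
    τ 2 1
    (fun n Q hQ => by
      have := inertia_rel W hΔ0 hq (hss q hq) P hP τ hτ (m := lam ^ n)
        (fun hd => hqlam ((Nat.prime_dvd_prime_iff_eq hq hlam).mp (hq.dvd_of_dvd_pow hd))) Q hQ
      simpa using this)
    (fun n ζ hζ => by
      rw [pow_one]
      exact Fermat.Agent.S31.inertia_apply_root hq hP hτ (m := lam ^ n)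
        (fun hd => hqlam ((Nat.prime_dvd_prime_iff_eq hq hlam).mp (hq.dvd_of_dvd_pow hd))) hζ)
  rw [key]
  simp only [Int.cast_ofNat, Nat.cast_one, map_one]
  rw [show (C (2 : ℤ_[lam]) : ℤ_[lam][X]) = 2 from rfl]
  ring

/-- (II) a prime `q ∥ N₀` divides `Δ`. -/
theorem no_good (W : WeierstrassCurve ℤ) (hΔ0 : W.Δ ≠ 0)
    {N₀ : ℕ} [NeZero N₀] {g : CuspForm (CongruenceSubgroup.Gamma0 N₀) 2} (hg : g.IsNewform)
    (B : Finset ℕ) (h : ∀ ℓ : ℕ, ℓ.Prime → ℓ ∉ B → qCoeff g ℓ = (W.apOfModel ℓ : ℂ))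
    {q : ℕ} (hq : q.Prime) (hqN : q ∣ N₀) (hq2 : ¬ q ^ 2 ∣ N₀) : (q : ℤ) ∣ W.Δ := by
  classical
  by_contra hqΔ
  obtain ⟨lam, hlam, hlam2, hqlam⟩ : ∃ lam : ℕ, lam.Prime ∧ lam ≠ 2 ∧ q ≠ lam := by
    by_cases h3 : q = 3
    · exact ⟨5, by norm_num, by norm_num, by omega⟩
    · exact ⟨3, by norm_num, by norm_num, h3⟩
  have : Fact lam.Prime := ⟨hlam⟩
  set S : Finset ℕ := B ∪ N₀.primeFactors ∪ {lam} with hS
  have hlamS : lam ∈ S := by simp [hS]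
  have hMS : ∀ r : ℕ, r.Prime → r ∣ N₀ → r ∈ S := by
    intro r hr hrN
    simp only [hS, Finset.mem_union, Nat.mem_primeFactors]
    exact Or.inl (Or.inr ⟨hr, hrN, NeZero.ne N₀⟩)
  have hBS : ∀ ℓ : ℕ, ℓ ∉ S → ℓ ∉ B := by
    intro ℓ hℓ hB
    exact hℓ (by simp [hS, hB])
  obtain ⟨chig, iota, hchig, hiota⟩ := exists_char hg.1 S hMS (fun ℓ => W.apOfModel ℓ)
    (fun ℓ hℓ hℓS => h ℓ hℓ (hBS ℓ hℓS)) lam
  obtain ⟨O'', i1, i2, i3, i4, i5, i6, i7, i8, i9, hinj, ρ, hρ, hst⟩ :=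
    Fermat.Agent.S35.result hg lam S ℤ_[lam] (lam_mem_maximalIdeal lam) chig hchig iota hlamS hMS
  obtain ⟨A, σ, hA, hσ⟩ := Fermat.Agent.S54.exists_frob q hq
  have hlamO : (lam : O'') ∈ IsLocalRing.maximalIdeal O'' := by
    have h1 := lam_mem_maximalIdeal lam
    rw [IsLocalRing.mem_maximalIdeal, mem_nonunits_iff] at h1 ⊢
    intro hu
    apply h1
    have : IsUnit (algebraMap ℤ_[lam] O'' (lam : ℤ_[lam])) := by rwa [map_natCast]
    exact isUnit_of_map_unit (algebraMap ℤ_[lam] O'') _ this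
  have hnd : ∀ n : ℕ, ¬ q ∣ lam ^ n := fun n hd =>
    hqlam ((Nat.prime_dvd_prime_iff_eq hq hlam).mp (hq.dvd_of_dvd_pow hd))
  have key := compare W hΔ0 hlam hlam2 O'' hlamO ρ S
    (fun ℓ hℓ hℓS A hA σ hσ => by
      have hℓM : ¬ ℓ ∣ N₀ := fun hd => hℓS (hMS ℓ hℓ hd)
      have hℓS' : ℓ ∉ (↑S : Set ℕ) := by simpa using hℓS
      rw [hρ ℓ hℓ hℓM hℓS' A hA σ hσ, hiota ℓ hℓ hℓM hℓS', map_intCast])
    σ (W.apOfModel q) q
    (fun n Q hQ => frob_rel W hq hqΔ A hA σ hσ (m := lam ^ n)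
      ((hlam.odd_of_ne_two hlam2).pow) (hnd n) Q hQ)
    (fun n ζ hζ => Fermat.Agent.S31.frob_apply_root hq hA hσ (hnd n) hζ)
  have hb := hasse_lite W hq
  rw [abs_le] at hb
  rcases hst q hq hqlam hqN hq2 A hA σ hσ with h1 | h1
  · rw [key] at h1
    have h2 := congrArg (fun P => P.coeff 1) h1
    simp only [coeff_add, coeff_sub, coeff_X_pow, coeff_C_mul, coeff_X_one, coeff_C] at h2
    norm_num at h2
    have h3 : W.apOfModel q = (q : ℤ) + 1 := by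
      have : ((W.apOfModel q : ℤ) : O'') = (((q : ℤ) + 1 : ℤ) : O'') := by
        push_cast
        linear_combination -h2
      exact_mod_cast this
    omega
  · rw [key] at h1
    have h2 := congrArg (fun P => P.coeff 1) h1
    simp only [coeff_add, coeff_sub, coeff_X_pow, coeff_C_mul, coeff_X_one, coeff_C] at h2
    norm_num at h2
    have h3 : W.apOfModel q = -((q : ℤ) + 1) := by
      have : ((W.apOfModel q : ℤ) : O'') = ((-((q : ℤ) + 1) : ℤ) : O'') := by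
        push_cast
        linear_combination -h2
      exact_mod_cast this
    omega

end Fermat.Agent.S58
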