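import Fermat.Agent.S58.Defs
import Fermat.Prelude.Def_CuspForm_Newforms

/-!
# S58, step (MIN): the newform attached to an eigenform
-/

set_option autoImplicit false

namespace Fermat.Agent.S58

open ModularFormClass

/-- (MIN) the minimal level `N₀ ∣ N` carrying the good eigensystem of `f` carries a newform. -/
theorem exists_min {N : ℕ} (hN : N ≠ 0) {f : CuspForm (CongruenceSubgroup.Gamma0 N) 2}
    (hf : f.IsNormalizedEigenform) :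
    ∃ (N₀ : ℕ) (g : CuspForm (CongruenceSubgroup.Gamma0 N₀) 2), N₀ ∣ N ∧ g.IsNewform ∧
      ∀ ℓ : ℕ, ℓ.Prime → ¬ ℓ ∣ N → qCoeff g ℓ = qCoeff f ℓ := by
  classical
  let Pr : ℕ → Prop := fun M => M ∣ N ∧ ∃ g : CuspForm (CongruenceSubgroup.Gamma0 M) 2,
    g.IsNormalizedEigenform ∧ ∀ ℓ : ℕ, ℓ.Prime → ¬ ℓ ∣ N → qCoeff g ℓ = qCoeff f ℓ
  have hex : ∃ M, Pr M := ⟨N, dvd_rfl, f, hf, fun _ _ _ => rfl⟩
  obtain ⟨hdvd, g, hg, hgf⟩ := Nat.find_spec hex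
  refine ⟨Nat.find hex, g, hdvd, ⟨hg, ?_⟩, hgf⟩
  rintro M hM hne ⟨g', hg', h'⟩
  have hlt : M < Nat.find hex :=
    lt_of_le_of_ne (Nat.le_of_dvd (Nat.pos_of_ne_zero fun h0 => hN (by
      rw [h0] at hdvd; exact Nat.eq_zero_of_zero_dvd hdvd)) hM) hne
  refine Nat.find_min hex hlt ⟨hM.trans hdvd, g', hg', fun ℓ hℓ hℓN => ?_⟩
  rw [h' ℓ hℓ (fun hd => hℓN (hd.trans hdvd)), hgf ℓ hℓ hℓN]

end Fermat.Agent.S58
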